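import Fermat.Agent.LocEll.Final
import Fermat.Agent.RT8.UniTame
import Fermat.Agent.RT8.Build
import Fermat.Agent.TW.HMod
import Fermat.Agent.TW.OPt
import Fermat.Agent.DS.Eigen
import Fermat.Agent.S21

/-!
# [LOCX]: unipotent inertia for the Hecke algebras of Hecke modules
-/

set_option autoImplicit false
set_option linter.unusedSectionVars false

noncomputable section

namespace Fermat.Agent.RT8X

open IsLocalRing Module Matrix Fermat.Agent.DefRing Fermat.Agent.TW Fermat.Agent.LocRing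
  Fermat.Agent.LocEll Fermat.Agent.QuadRep Fermat.Agent.HeckeHom
open ModularCurve.Period CongruenceSubgroup
open scoped TensorProduct

section Cont

variable {T : Type} [CommRing T] [IsLocalRing T]

/-- continuous functions agreeing on Frobenius elements -/
theorem eq_of_frob_fun [IsHausdorff (maximalIdeal T) T] (t c : GQ → T)
    (ht : ∀ n : ℕ, ∃ L : IntermediateField ℚ (AlgebraicClosure ℚ), FiniteDimensional ℚ L ∧
      ∀ σ τ : GQ, (∀ x ∈ L, σ x = τ x) → t σ - t τ ∈ maximalIdeal T ^ n)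
    (hc : ∀ n : ℕ, ∃ L : IntermediateField ℚ (AlgebraicClosure ℚ), FiniteDimensional ℚ L ∧
      ∀ σ τ : GQ, (∀ x ∈ L, σ x = τ x) → c σ - c τ ∈ maximalIdeal T ^ n)
    (S : Finset ℕ)
    (h : ∀ l : ℕ, l.Prime → l ∉ S → ∀ A : ValuationSubring (AlgebraicClosure ℚ),
      A.LiesOverPrime l → ∀ τ : GQ, A.IsFrobeniusAt τ l → t τ = c τ) (σ : GQ) : t σ = c σ := by
  rw [← sub_eq_zero]
  refine IsHausdorff.haus (I := maximalIdeal T) inferInstance _ (fun n => ?_)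
  rw [SModEq.zero, smul_eq_mul, Ideal.mul_top]
  obtain ⟨L₂, hL₂, h₂⟩ := ht n
  obtain ⟨L₃, hL₃, h₃⟩ := hc n
  have hfin : FiniteDimensional ℚ (L₂ ⊔ L₃ : IntermediateField ℚ (AlgebraicClosure ℚ)) :=
    inferInstance
  obtain ⟨l, hl, hlS, -, A, hA, τ, hτ, hστ⟩ := Cheb.exists_frobenius_eq _ hfin σ S
  have e2 := h₂ τ σ (fun x hx => hστ x ((le_sup_left : L₂ ≤ L₂ ⊔ L₃) hx))
  have e3 := h₃ τ σ (fun x hx => hστ x ((le_sup_right : L₃ ≤ L₂ ⊔ L₃) hx))
  have h4 := h l hl hlS A hA τ hτ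
  have e : t σ - c σ = (c τ - c σ) - (t τ - t σ) := by rw [h4]; ring
  rw [e]
  exact Ideal.sub_mem _ e3 e2

theorem det_cont {r : GQ →* M2 T} (hr : MatCont T r) (n : ℕ) :
    ∃ L : IntermediateField ℚ (AlgebraicClosure ℚ), FiniteDimensional ℚ L ∧
      ∀ σ τ : GQ, (∀ x ∈ L, σ x = τ x) → (r σ).det - (r τ).det ∈ maximalIdeal T ^ n := by
  obtain ⟨L, hL, h⟩ := hr n
  refine ⟨L, hL, fun σ τ hστ => ?_⟩
  have e1 := map_eq_of_agree r n h hστ
  rw [← Ideal.Quotient.eq]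
  have h2 : ∀ ρ : GQ, Ideal.Quotient.mk (maximalIdeal T ^ n) (r ρ).det =
      ((r ρ).map (Ideal.Quotient.mk (maximalIdeal T ^ n))).det := by
    intro ρ
    exact RingHom.map_det _ _
  rw [h2, h2, e1]

variable {p : ℕ} [Fact p.Prime] [IsAdicComplete (maximalIdeal T) T]
  (hpT : (p : T) ∈ maximalIdeal T)

/-- the determinant is the cyclotomic character -/
theorem det_eq_cyc {r : GQ →* M2 T} (hr : MatCont T r) (S : Finset ℕ)
    (h : ∀ l : ℕ, l.Prime → l ∉ S → ∀ A : ValuationSubring (AlgebraicClosure ℚ),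
      A.LiesOverPrime l → ∀ τ : GQ, A.IsFrobeniusAt τ l → (r τ).det = (l : T)) (σ : GQ) :
    (r σ).det = cyc p T hpT σ := by
  classical
  refine eq_of_frob_fun (fun σ => (r σ).det) (fun σ => cyc p T hpT σ) (det_cont hr)
    (char_cont (cyc p T hpT) (exists_finite_cyc hpT)) (insert p S) ?_ σ
  intro l hl hlS A hA τ hτ
  rw [Finset.mem_insert, not_or] at hlS
  rw [cyc_frobenius hpT hl hlS.1 hA hτ, h l hl hlS.2 A hA τ hτ]

end Cont

section Eig

theorem exists_eig_abs {E B V : Type*} [Field E] [IsAlgClosed E] [CommRing B] [AddCommGroup V]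
    [Module E V] [FiniteDimensional E V] (Φ : E ⊗[ℤ] B →ₐ[E] Module.End E V)
    (hΦ : Function.Injective Φ) (θ : B →+* E) :
    ∃ v : V, v ≠ 0 ∧ ∀ t : B, Φ (1 ⊗ₜ t) v = θ t • v := by
  let Θ : E ⊗[ℤ] B →ₐ[E] E :=
    Algebra.TensorProduct.lift (AlgHom.id E E) θ.toIntAlgHom (fun _ _ => mul_comm _ _)
  have hΘ : ∀ (e : E) t, Θ (e ⊗ₜ t) = e * θ t := fun e t =>
    Algebra.TensorProduct.lift_tmul _ _ _ _ _
  have hker : (RingHom.ker (Θ : E ⊗[ℤ] B →+* E)).IsPrime := RingHom.ker_isPrime _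
  obtain ⟨v, χ, hv, hχ, hχ0⟩ := DS.exists_common_eigenvector
    (Φ : E ⊗[ℤ] B →+* Module.End E V) _ hker (fun t ht => by
        have h1 : t = 0 := hΦ (ht.trans (map_zero _).symm)
        rw [h1]
        exact zero_mem _)
  have hχ' : ∀ t, Φ t v = χ t • v := hχ
  refine ⟨v, hv, fun t => ?_⟩
  have hχE : ∀ e : E, χ (e ⊗ₜ 1) = e := by
    intro e
    have h1 := hχ' (e ⊗ₜ 1)
    have h2 : Φ (e ⊗ₜ 1) = algebraMap E _ e := Φ.commutes e
    rw [h2, Module.algebraMap_end_apply, ← sub_eq_zero] at h1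
    have h3 : (e - χ (e ⊗ₜ 1)) • v = 0 := by rw [sub_smul]; exact h1
    exact (sub_eq_zero.mp ((smul_eq_zero.mp h3).resolve_right hv)).symm
  have h2 : χ ((1 : E) ⊗ₜ t - χ ((1 : E) ⊗ₜ t) ⊗ₜ 1) = 0 := by
    rw [map_sub, hχE, sub_self]
  have h3 : Θ ((1 : E) ⊗ₜ t - χ ((1 : E) ⊗ₜ t) ⊗ₜ 1) = 0 := hχ0 _ h2
  rw [map_sub, hΘ, hΘ, map_one, one_mul, mul_one, sub_eq_zero] at h3
  rw [hχ', h3]

/-- eigenvectors for characters of the Hecke algebra -/
theorem exists_VE {E : Type} [Field E] [IsAlgClosed E] [CharZero E] {n m : ℕ} [NeZero n]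
    (hnm : ∀ q : ℕ, q.Prime → q ∣ n → q ∣ m) (a : ℕ → E)
    (θ : CuspForm.heckeAlgebra n 2 (SS m) →+* E)
    (hθ : ∀ (l : ℕ) (hl : l.Prime) (hln : ¬ l ∣ n) (hlm : l ∉ SS m),
      θ (CuspForm.heckeAlgebra.T hl hln hlm) = a l) :
    ∃ φ : parabolicHoms E (Gamma0 n) E, φ ≠ 0 ∧ φ ∈ VE E n m a := by
  have hES : ES n := S21.result n
  have hS : ∀ q : ℕ, q.Prime → q ∣ n → q ∈ SS m := hnm
  obtain ⟨v, hv, h⟩ := exists_eig_abs (thetaR hES hS E) (thetaR_injective hES hS E) θ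
  refine ⟨v, hv, fun s hs hsn hsm => ?_⟩
  have hsS : s ∉ SS m := hsm
  have h1 := h (CuspForm.heckeAlgebra.T hs hsn hsS)
  rw [thetaR_tmul, one_smul, theta_T, hθ s hs hsn hsS] at h1
  exact h1

end Eig

section Points

variable {p n m : ℕ} [Fact p.Prime] [NeZero n] (hnm : ∀ q : ℕ, q.Prime → q ∣ n → q ∣ m)
  {O : Type} [CommRing O] [IsLocalRing O] {rbar : GQ →* M2 (ResidueField O)}
  {sd : SliceData rbar} {M : Type} [AddCommGroup M] [Module (TPoly m O) M] [Module O M]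
  (R : HRep (m := m) p n sd M)

include hnm in
/-- the eigenvectors attached to points of the Hecke algebra -/
theorem exists_VE_of_hrep {E : Type} [Field E] [IsAlgClosed E] [CharZero E] (f : R.C.T →+* E)
    (a : ℕ → E) (ha : ∀ (l : ℕ) (hl : l.Prime) (hlm : ¬ l ∣ m),
      f (R.φ (MvPolynomial.X ⟨l, hl, hlm⟩)) = a l) :
    ∃ φ : parabolicHoms E (Gamma0 n) E, φ ≠ 0 ∧ φ ∈ VE E n m a := by
  let g : TPoly m ℤ →+* E := f.comp ((R.φ : TPoly m O →+* R.C.T).comp (TWD.Shap.pz m O))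
  have hsurj : Function.Surjective (polyHecke (n := n) hnm : TPoly m ℤ →+*
    CuspForm.heckeAlgebra n 2 (SS m)) := polyHecke_surjective hnm
  have hg : ∀ x, polyHecke (n := n) hnm x = 0 → g x = 0 := by
    intro x hx
    have h1 := R.rel hnm x hx
    change f (R.φ (TWD.Shap.pz m O x)) = 0
    rw [h1, map_zero]
  let θ : CuspForm.heckeAlgebra n 2 (SS m) →+* E :=
    (polyHecke (n := n) hnm : TPoly m ℤ →+* CuspForm.heckeAlgebra n 2 (SS m)).liftOfSurjective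
      hsurj ⟨g, fun x hx => hg x hx⟩
  have hθ : ∀ x, θ (polyHecke (n := n) hnm x) = g x := fun x =>
    RingHom.liftOfRightInverse_comp_apply _ _ _ ⟨g, fun x hx => hg x hx⟩ x
  refine exists_VE hnm a θ fun l hl hln hlm => ?_
  have h1 := hθ (MvPolynomial.X ⟨l, hl, hlm⟩)
  rw [polyHecke_X] at h1
  refine h1.trans ?_
  change f (R.φ (TWD.Shap.pz m O (MvPolynomial.X ⟨l, hl, hlm⟩))) = _
  rw [MvPolynomial.map_X]
  exact ha l hl hlm

end Points


section Main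

variable {p n m : ℕ} [hp : Fact p.Prime] [NeZero n] (hm : m ≠ 0)
  (hnm : ∀ q : ℕ, q.Prime → q ∣ n → q ∣ m)
  {O : Type} [CommRing O] [IsDomain O] [IsDiscreteValuationRing O]
  [IsAdicComplete (maximalIdeal O) O] [Finite (ResidueField O)] [CharZero O]
  (hpO : (p : O) ∈ maximalIdeal O) {rbar : GQ →* M2 (ResidueField O)}
  {sd : SliceData rbar} {M : Type} [AddCommGroup M] [Module (TPoly m O) M] [Module O M]
  (R : HRep (m := m) p n sd M)

include hpO in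
theorem natCast_mem_T : (p : R.C.T) ∈ maximalIdeal R.C.T := by
  have h1 : (p : R.C.T) = algebraMap O R.C.T (p : O) := by rw [map_natCast]
  rw [h1]
  exact map_nonunit (algebraMap O R.C.T) _ hpO

include hm hpO in
/-- the determinant at Frobenius elements -/
theorem det_frob {q : ℕ} (hq : q.Prime) (hqp : q ≠ p) {A : ValuationSubring (AlgebraicClosure ℚ)}
    (hA : A.LiesOverPrime q) {σ : GQ} (hσ : A.IsFrobeniusAt σ q) : (R.C.r σ).det = (q : R.C.T) := by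
  have hpT := natCast_mem_T hpO R
  have hcomp : IsAdicComplete (maximalIdeal R.C.T) R.C.T :=
    IsLocalRing.isAdicComplete_of_module_finite (𝒪 := O) (T := R.C.T)
  rw [det_eq_cyc hpT R.C.cont m.divisors (fun l hl hlm A hA τ hτ =>
    (R.tr ⟨l, hl, fun h => hlm (Nat.mem_divisors.mpr ⟨h, hm⟩)⟩ A hA τ hτ).2) σ,
    cyc_frobenius hpT hq hqp hA hσ]

include hm hpO in
theorem det_inertia {q : ℕ} (hq : q.Prime) (hqp : q ≠ p)
    {A : ValuationSubring (AlgebraicClosure ℚ)}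
    (hA : A.LiesOverPrime q) {σ : GQ} (hσ : σ ∈ A.inertiaSubgroupIn ℚ) : (R.C.r σ).det = 1 := by
  have hpT := natCast_mem_T hpO R
  have hcomp : IsAdicComplete (maximalIdeal R.C.T) R.C.T :=
    IsLocalRing.isAdicComplete_of_module_finite (𝒪 := O) (T := R.C.T)
  rw [det_eq_cyc hpT R.C.cont m.divisors (fun l hl hlm A hA τ hτ =>
    (R.tr ⟨l, hl, fun h => hlm (Nat.mem_divisors.mpr ⟨h, hm⟩)⟩ A hA τ hτ).2) σ,
    cyc_inertia hpT hq hqp hA hσ]

/-- the representation of a point -/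
def ptRep (P : OPt O R.C.T) : GQ →* M2 P.A := mapRep (P.χ : R.C.T →+* P.A) R.C.r

theorem ptRep_cont (P : OPt O R.C.T) : MatCont P.A (ptRep R P) := by
  have h := isLocalHom_of_algHom P.χ
  exact mapRep_cont (P.χ : R.C.T →+* P.A) h R.C.r R.C.cont

theorem ptRep_trace (P : OPt O R.C.T) (σ : GQ) : (ptRep R P σ).trace = P.χ (R.C.r σ).trace :=
  trace_mapRep _ _ _

include hnm in
/-- the eigenvector of a point -/
theorem exists_VE_pt (P : OPt O R.C.T) : ∃ a : ℕ → AlgebraicClosure (FractionRing P.A),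
    (∃ φ : parabolicHoms (AlgebraicClosure (FractionRing P.A)) (Gamma0 n)
      (AlgebraicClosure (FractionRing P.A)), φ ≠ 0 ∧
        ∀ m', m ∣ m' → φ ∈ VE (AlgebraicClosure (FractionRing P.A)) n m' a) ∧
    ∀ s : ℕ, s.Prime → ¬ s ∣ m → ∀ A : ValuationSubring (AlgebraicClosure ℚ),
      A.LiesOverPrime s → ∀ τ : GQ, A.IsFrobeniusAt τ s →
        (algebraMap P.A (AlgebraicClosure (FractionRing P.A))) (ptRep R P τ).trace = a s := by
  classical
  let E := AlgebraicClosure (FractionRing P.A)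
  have hch : CharZero E := charZero_of_injective_algebraMap
    (algebraMap (FractionRing P.A) E).injective
  let f : R.C.T →+* E := (algebraMap P.A E).comp (P.χ : R.C.T →+* P.A)
  let a : ℕ → E := fun l => if h : l.Prime ∧ ¬ l ∣ m then f (R.φ (MvPolynomial.X ⟨l, h⟩)) else 0
  have ha : ∀ (l : ℕ) (hl : l.Prime) (hlm : ¬ l ∣ m),
      f (R.φ (MvPolynomial.X ⟨l, hl, hlm⟩)) = a l := by
    intro l hl hlm
    have h : l.Prime ∧ ¬ l ∣ m := ⟨hl, hlm⟩
    have h1 : a l = if h : l.Prime ∧ ¬ l ∣ m then f (R.φ (MvPolynomial.X ⟨l, h⟩)) else 0 := rfl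
    rw [h1, dif_pos h]
  obtain ⟨φ, hφ0, hφ⟩ := exists_VE_of_hrep hnm R f a ha
  have hφ' : ∀ m', m ∣ m' → φ ∈ VE E n m' a := by
    intro m' hmm s hs hsn hsm
    exact hφ s hs hsn (fun h => hsm (h.trans hmm))
  refine ⟨a, ⟨φ, hφ0, hφ'⟩, fun s hs hsm A hA τ hτ => ?_⟩
  rw [ptRep_trace, (R.tr ⟨s, hs, hsm⟩ A hA τ hτ).1]
  exact ha s hs hsm

include hm hnm hpO in
/-- **Unipotent inertia at points** -/
theorem unip_pt (P : OPt O R.C.T) {q : ℕ} (hq : q.Prime) (hqp : q ≠ p) (hqn : ¬ q ^ 2 ∣ n)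
    {A : ValuationSubring (AlgebraicClosure ℚ)} (hA : A.LiesOverPrime q) {σ : GQ}
    (hσ : σ ∈ A.inertiaSubgroupIn ℚ) : (ptRep R P σ - 1) * (ptRep R P σ - 1) = 0 := by
  by_cases hqn' : q ∣ n
  · obtain ⟨a, ⟨φ, hφ0, hφ⟩, ha⟩ := exists_VE_pt hnm R P
    let E := AlgebraicClosure (FractionRing P.A)
    have hch : CharZero E := charZero_of_injective_algebraMap
      (algebraMap (FractionRing P.A) E).injective
    have hinj : Function.Injective (algebraMap P.A E) := by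
      rw [IsScalarTower.algebraMap_eq P.A (FractionRing P.A) E]
      exact (algebraMap (FractionRing P.A) E).injective.comp (IsFractionRing.injective P.A _)
    have hpA : (p : P.A) ∈ maximalIdeal P.A := by
      have h1 : (p : P.A) = algebraMap O P.A (p : O) := by rw [map_natCast]
      rw [h1]
      exact map_nonunit (algebraMap O P.A) _ hpO
    have hn0 : n ≠ 0 := NeZero.ne n
    exact (loc_uni (m := m * (n * p)) hpA (algebraMap P.A E) hinj hq hqp hqn' hqn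
      (mul_ne_zero hm (mul_ne_zero hn0 hp.out.ne_zero)) (dvd_mul_left _ _) a hφ0
      (hφ _ (dvd_mul_right _ _)) (ptRep R P) (ptRep_cont R P)
      (fun s hs hsm A hA τ hτ => ha s hs (fun h => hsm (h.mul_right _)) A hA τ hτ) hA hσ).2.2
  · have h1 : ptRep R P σ = 1 := by
      have h2 := R.unr q hq hqn' hqp A hA σ hσ
      change (P.χ : R.C.T →+* P.A).mapMatrix (R.C.r σ) = 1
      rw [h2, map_one]
    rw [h1, sub_self, zero_mul]

include hm hnm hpO in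
/-- **Unipotent inertia** -/
theorem unip {q : ℕ} (hq : q.Prime) (hqp : q ≠ p) (hqn : ¬ q ^ 2 ∣ n)
    {A : ValuationSubring (AlgebraicClosure ℚ)} (hA : A.LiesOverPrime q) {σ : GQ}
    (hσ : σ ∈ A.inertiaSubgroupIn ℚ) : (R.C.r σ - 1) * (R.C.r σ - 1) = 0 := by
  have hfree := R.free
  have hred := R.red
  obtain ⟨ι, -, pt, hpt⟩ := exists_opts O R.C.T
  refine RT8.matrix_eq_of_family (fun i => ((pt i).χ : R.C.T →+* (pt i).A)) hpt fun i => ?_
  have h1 := unip_pt hm hnm hpO R (pt i) hq hqp hqn hA hσ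
  rw [Matrix.map_mul, RT8.Sys.map_sub_one']
  rw [Matrix.map_zero _ (map_zero _)]
  exact h1

include hm hnm hpO in
/-- **[LOCX]** -/
theorem isUni {q : Nat.Primes} (hqp : (q : ℕ) ≠ p) (hqn : ¬ (q : ℕ) ^ 2 ∣ n)
    {c : AlgebraicClosure ℚ} (hc : c ^ p = ((q : ℕ) : AlgebraicClosure ℚ)) {τ φ : GQ}
    (hτ : τ ∈ (TWP.Pl q).inertiaSubgroupIn ℚ) (hτc : τ c ≠ c)
    (hφ : (TWP.Pl q).IsFrobeniusAt φ q) :
    IsUni ((q : ℕ) : R.C.T) (R.C.r φ) (R.C.r τ - 1) := by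
  have hcomp : IsAdicComplete (maximalIdeal R.C.T) R.C.T :=
    IsLocalRing.isAdicComplete_of_module_finite (𝒪 := O) (T := R.C.T)
  exact RT8.isUni_of_unip (natCast_mem_T hpO R) R.C.r R.C.cont hqp hc hτ hτc hφ
    (fun σ hσ => unip hm hnm hpO R q.2 hqp hqn (TWP.Pl_lies q) hσ)
    (det_frob hm hpO R q.2 hqp (TWP.Pl_lies q) hφ)
    (det_inertia hm hpO R q.2 hqp (TWP.Pl_lies q) hτ)

include hm hnm hpO in
/-- the local conditions of a patching system -/
theorem locU {Λ : Type} (q : Λ → Nat.Primes) (hqp : ∀ l, (q l : ℕ) ≠ p)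
    (hqn : ∀ l, ¬ (q l : ℕ) ^ 2 ∣ n) (φ τ : Λ → GQ) (c : Λ → AlgebraicClosure ℚ)
    (hc : ∀ l, c l ^ p = ((q l : ℕ) : AlgebraicClosure ℚ))
    (hτ : ∀ l, τ l ∈ (TWP.Pl (q l)).inertiaSubgroupIn ℚ) (hτc : ∀ l, τ l (c l) ≠ c l)
    (hφ : ∀ l, (TWP.Pl (q l)).IsFrobeniusAt (φ l) (q l)) :
    RT8.LocU (fun l => (q l : ℕ)) φ τ R.C := fun l =>
  isUni hm hnm hpO R (hqp l) (hqn l) (hc l) (hτ l) (hτc l) (hφ l)

/-- triviality of inertia outside the level -/
theorem triv_of_not_dvd {q : Nat.Primes} (hqp : (q : ℕ) ≠ p) (hqn : ¬ (q : ℕ) ∣ n) {τ : GQ}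
    (hτ : τ ∈ (TWP.Pl q).inertiaSubgroupIn ℚ) : R.C.r τ = 1 :=
  R.unr q q.2 hqn hqp _ (TWP.Pl_lies q) τ hτ

end Main

end Fermat.Agent.RT8X
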