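import Fermat.Agent.RT8X.LocX
import Fermat.Agent.TWDeg.NewKill
import Fermat.Agent.TWDeg.LocNewPf

/-!
# [NEWX]: levels without forms of lower level
-/

set_option autoImplicit false
set_option linter.unusedSectionVars false

noncomputable section

namespace Fermat.Agent.RT8X

open IsLocalRing Module Matrix Fermat.Agent.DefRing Fermat.Agent.TW Fermat.Agent.LocRing
  Fermat.Agent.TWDeg Fermat.Agent.HeckeHom

section StPm

variable {p n m : ℕ} [hp : Fact p.Prime] [NeZero n] (hm : m ≠ 0)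
  (hnm : ∀ q : ℕ, q.Prime → q ∣ n → q ∣ m)
  {O : Type} [CommRing O] [IsDomain O] [IsDiscreteValuationRing O]
  [IsAdicComplete (maximalIdeal O) O] [Finite (ResidueField O)] [CharZero O]
  (hpO : (p : O) ∈ maximalIdeal O) {rbar : GQ →* M2 (ResidueField O)}
  {sd : SliceData rbar} {M : Type} [AddCommGroup M] [Module (TPoly m O) M] [Module O M]
  (R : HRep (m := m) p n sd M)

theorem isUni_map' {R S : Type} [CommRing R] [CommRing S] (f : R →+* S) {q : R}
    {F N : Matrix (Fin 2) (Fin 2) R} (h : IsUni q F N) : IsUni (f q) (F.map f) (N.map f) := by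
  refine ⟨?_, ?_, ?_, ?_, ?_⟩
  · have h1 : (F.map f).det = f F.det := (RingHom.map_det f F).symm
    rw [h1, h.detF]
  · have h1 := congrArg (fun X : Matrix (Fin 2) (Fin 2) R => X.map f) h.FN
    simp only [Matrix.map_mul] at h1
    rw [h1]
    refine Matrix.ext fun i j => ?_
    simp [Matrix.mul_apply, mul_add]
  · rw [← Matrix.map_mul, h.NN]
    exact Matrix.map_zero f (map_zero f)
  · have h1 : (N.map f).trace = f N.trace := by simp [Matrix.trace_fin_two]
    rw [h1, h.trN, map_zero]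
  · have h1 : (N.map f).det = f N.det := (RingHom.map_det f N).symm
    rw [h1, h.detN, map_zero]

include hm hnm hpO in
/-- Steinberg pairs from the trace relation -/
theorem isStPm_of_trace {q : Nat.Primes} (hqp : (q : ℕ) ≠ p) (hqn : ¬ (q : ℕ) ^ 2 ∣ n)
    {c : AlgebraicClosure ℚ} (hc : c ^ p = ((q : ℕ) : AlgebraicClosure ℚ)) {τ φ : GQ}
    (hτ : τ ∈ (TWP.Pl q).inertiaSubgroupIn ℚ) (hτc : τ c ≠ c)
    (hφ : (TWP.Pl q).IsFrobeniusAt φ q)
    (htr : (R.C.r φ).trace ^ 2 = (((q : ℕ) : R.C.T) + 1) ^ 2) :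
    RT8.IsStPm ((q : ℕ) : R.C.T) (R.C.r φ) (R.C.r τ - 1) := by
  have hU := isUni hm hnm hpO R hqp hqn hc hτ hτc hφ
  have hfree := R.free
  have hred := R.red
  obtain ⟨ι, -, pt, hpt⟩ := exists_opts O R.C.T
  refine RT8.isStPm_of_family (fun i => ((pt i).χ : R.C.T →+* (pt i).A)) hpt fun i => ?_
  have hq0 : ((pt i).χ : R.C.T →+* (pt i).A) ((q : ℕ) : R.C.T) ≠ 0 := by
    rw [map_natCast]
    exact Nat.cast_ne_zero.mpr q.2.ne_zero
  refine RT8.isStPm_of_isUni hq0 (isUni_map' _ hU) ?_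
  have h1 : ((R.C.r φ).map ((pt i).χ : R.C.T →+* (pt i).A)).trace =
      ((pt i).χ : R.C.T →+* (pt i).A) (R.C.r φ).trace := by simp [Matrix.trace_fin_two]
  rw [h1, ← map_pow, htr, map_pow, map_add, map_one]

end StPm

section NewX

variable {D : Type} [CommGroup D] [Fintype D] (W : TWD D) {l : ℕ} (hl : l.Prime) (hlQ : l ∉ W.Q)
  {m : ℕ} (hM : W.M ∣ m) (hM' : (raise W hl hlQ).M ∣ m) (hlN : ¬ l ∣ W.N) (hm : m ≠ 0)
  {p : ℕ} [Fact p.Prime] (hpm : p ∣ m) (hlp : l ≠ p)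
  {O : Type} [CommRing O] [IsDomain O] [IsDiscreteValuationRing O]
  [IsAdicComplete (maximalIdeal O) O] [Finite (ResidueField O)] [CharZero O]
  (hpO : (p : O) ∈ maximalIdeal O)
  (𝔪 : Ideal (TPoly m O)) [𝔪.IsMaximal] (hE : NonEis (raise W hl hlQ).M 𝔪)
  {rbar : GQ →* M2 (ResidueField O)} {sd : SliceData rbar} {n' : ℕ}
  (R : HRep (m := m) p n' sd (MQ (raise W hl hlQ) hM' 𝔪 O))

include hM hlN hm hpm hlp hpO hE in
/-- **[NEWX]**: if the module of level `N` vanishes, then `(tr r(φ_l))² = (l+1)²` at level `N l`. -/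
theorem trace_sq (h0 : Subsingleton (MQ W hM 𝔪 O)) {B : ValuationSubring (AlgebraicClosure ℚ)}
    (hB : B.LiesOverPrime l) {τ : GQ} (hτ : B.IsFrobeniusAt τ l) :
    (R.C.r τ).trace ^ 2 = ((l : R.C.T) + 1) ^ 2 := by
  obtain ⟨β, hβ⟩ := R.surj ((R.C.r τ).trace ^ 2 - ((l : R.C.T) + 1) ^ 2)
  rw [← sub_eq_zero, ← hβ, R.ker]
  intro x
  refine kill_ker_down (fun n _ => S21.result n) locNew W hl hlQ hM hM' hlN hm hpm hlp hpO R.φ
    R.surj R.C.cont R.tr hB hτ hβ 𝔪 hE (fun P hP => (R.ker P).mp hP) x ?_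
  exact Prod.ext (Subsingleton.elim _ _) (Subsingleton.elim _ _)

end NewX

end Fermat.Agent.RT8X
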