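import Fermat.Agent.RT8X.NewX
import Fermat.Agent.TW.BaseIso
import Fermat.Agent.RTM.HG
import Fermat.Agent.RTM.ResId
import Fermat.Agent.S30

/-!
# New levels of the patching system
-/

set_option autoImplicit false
set_option linter.unusedSectionVars false

noncomputable section

namespace Fermat.Agent.RT8X

open IsLocalRing Module Matrix Fermat.Agent.DefRing Fermat.Agent.TW Fermat.Agent.LocRing
  Fermat.Agent.TWDeg Fermat.Agent.HeckeHom Fermat.Agent.RTM CuspForm

section Good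

variable {O : Type} [CommRing O] [IsLocalRing O] {p : ℕ} (hp : p.Prime)
  (hpO : (p : O) ∈ maximalIdeal O)

include hp hpO in
/-- primes different from the residue characteristic are units -/
theorem isUnit_natCast {q : ℕ} (hq : q.Prime) (hqp : q ≠ p) : IsUnit (q : O) := by
  by_contra h
  have h1 : (q : O) ∈ maximalIdeal O := h
  obtain ⟨a, b, hab⟩ : ∃ a b : ℤ, a * q + b * p = 1 := by
    have h2 : IsCoprime (q : ℤ) (p : ℤ) :=
      Nat.isCoprime_iff_coprime.mpr ((Nat.coprime_primes hq hp).mpr hqp)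
    exact h2
  have h2 : (1 : O) ∈ maximalIdeal O := by
    have h3 : (((a * q + b * p : ℤ)) : O) ∈ maximalIdeal O := by
      push_cast
      exact Ideal.add_mem _ (Ideal.mul_mem_left _ _ h1) (Ideal.mul_mem_left _ _ hpO)
    rw [hab, Int.cast_one] at h3
    exact h3
  exact (Ideal.ne_top_iff_one _).mp (maximalIdeal.isMaximal O).ne_top h2

include hp hpO in
/-- goodness of the level sets -/
theorem goodFor_of {D : Type} [CommGroup D] (W : TWD D) (t : ℕ → LT) (hp2 : p ≠ 2)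
    (h : 2 ∣ W.N ∨ 5 ≤ p) : GoodFor W.M O (W.Yt t) := by
  refine ⟨?_, W.neg_smul t, ?_⟩
  · have h1 := isUnit_natCast hp hpO Nat.prime_two (Ne.symm hp2)
    rwa [Nat.cast_ofNat] at h1
  · rcases h with h | h
    · exact Or.inr fun y => W.U_free Nat.prime_two h rfl t y
    · have h1 := isUnit_natCast hp hpO Nat.prime_three (by omega)
      rw [Nat.cast_ofNat] at h1
      exact Or.inl h1

end Good

section Newst

variable (W₀ : WeierstrassCurve ℤ) (hΔ : W₀.Δ ≠ 0) {p : ℕ} [hp : Fact p.Prime] (hp2 : p ≠ 2)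
  (hirr : W₀.ModRepIsIrreducible p)
  {O : Type} [CommRing O] [IsDomain O] [IsDiscreteValuationRing O]
  [IsAdicComplete (maximalIdeal O) O] [Finite (ResidueField O)] [CharZero O]
  (hpO : (p : O) ∈ maximalIdeal O)

include hΔ hp2 hirr hpO in
/-- a level which is not residually modular has trivial cohomology at the ideal of `W₀` -/
theorem subsingleton_HG {m n : ℕ} (hm : m ≠ 0) (hn : n ∣ m)
    (hres : ¬ W₀.IsResiduallyModularOfLevel p n) :
    Subsingleton (Loc (PP W₀ m O) (HG m n hn O)) := by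
  rw [← not_nontrivial_iff_subsingleton]
  exact fun h => hres (res_of_nz W₀ O hm hp.out hpO hΔ hn
    (fun M hM => nonEis_PP W₀ hΔ hp.out hp2 hirr O hm hM hpO) h)

variable {rbar : GQ →* M2 (ResidueField O)} (sd : SliceData rbar)
  (hspan : Submodule.span (ResidueField O) (Set.range rbar) = ⊤)
  (hrbar : ∃ L : IntermediateField ℚ (AlgebraicClosure ℚ), FiniteDimensional ℚ L ∧
      ∀ σ : GQ, (∀ x ∈ L, σ x = x) → rbar σ = 1)
  {m m' : ℕ} (hm : m' ≠ 0) (hmm : m ∣ m') (hpm : p ∣ m)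
  (htr : ∀ (l : Pr m) (B : ValuationSubring (AlgebraicClosure ℚ)), B.LiesOverPrime l →
      ∀ τ : GQ, B.IsFrobeniusAt τ l →
        (rbar τ).trace = ((W₀.apOfModel l : ℤ) : ResidueField O))
  {D : Type} [CommGroup D] [Fintype D] (W : TWD D) (hM : W.M ∣ m') (hN : W.N ∣ m)
  (hN23 : 2 ∣ W.N ∨ 5 ≤ p) (hQm : ∀ q ∈ W.Q, ¬ q ∣ m)
  (hfr : ∀ q ∈ W.Q, ∃ B : ValuationSubring (AlgebraicClosure ℚ), B.LiesOverPrime q ∧
    ∃ τ : GQ, B.IsFrobeniusAt τ q ∧ (rbar τ).trace ^ 2 ≠ ((q : ResidueField O) + 1) ^ 2)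
  (hPG : IsPGroup p (W.Q → D))

include hmm htr in
theorem resId_PP' : ResId rbar (PP W₀ m' O) :=
  resId_PP W₀ rbar fun l B hB τ hτ => htr ⟨l, l.2.1, fun h => l.2.2 (h.trans hmm)⟩ B hB τ hτ

include hΔ hp2 hirr hpO sd hspan hrbar hm hmm hpm htr hN hN23 hQm hfr hPG in
/-- **Vanishing** of the Taylor–Wiles modules over a level which is not residually modular -/
theorem subsingleton_MQ_of_not_res (hres : ¬ W₀.IsResiduallyModularOfLevel p W.N) :
    Subsingleton (MQ W hM (PP W₀ m' O) O) := by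
  have hm0 : m ≠ 0 := fun h => hm (Nat.eq_zero_of_zero_dvd (h ▸ hmm))
  exact subsingleton_MQ S30.result hm hmm hpm hpO sd hspan hrbar (fun n _ => S21.result n) locNew
    (resId_PP' W₀ hmm htr) (resId_PP W₀ rbar htr) W hM hN
    (nonEis_PP W₀ hΔ hp.out hp2 hirr O hm W.tws.modu_ne_zero hpO) hQm hfr
    (goodFor_of hp.out hpO W _ hp2 hN23) (goodFor_of hp.out hpO W _ hp2 hN23) hPG
    (subsingleton_HG W₀ hΔ hp2 hirr hpO hm0 hN hres)

variable {l : ℕ} (hl : l.Prime) (hlQ : l ∉ W.Q) (hM' : (raise W hl hlQ).M ∣ m')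
  (hlN : ¬ l ∣ W.N) (hlp : l ≠ p) {n' : ℕ}
  (R : HRep (m := m') p n' sd (MQ (raise W hl hlQ) hM' (PP W₀ m' O) O))

include hΔ hp2 hirr hpO hspan hrbar hm hmm hpm htr hM hN hN23 hQm hfr hPG hlN hlp in
/-- **new levels**: `(tr r(φ_l))² = (l + 1)²` at level `N l` if the level `N` is not residually
modular -/
theorem trace_sq_of_not_res (hres : ¬ W₀.IsResiduallyModularOfLevel p W.N)
    {B : ValuationSubring (AlgebraicClosure ℚ)} (hB : B.LiesOverPrime l) {τ : GQ}
    (hτ : B.IsFrobeniusAt τ l) : (R.C.r τ).trace ^ 2 = ((l : R.C.T) + 1) ^ 2 :=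
  trace_sq W hl hlQ hM hM' hlN hm (hpm.trans hmm) hlp hpO (PP W₀ m' O)
    (nonEis_PP W₀ hΔ hp.out hp2 hirr O hm (raise W hl hlQ).tws.modu_ne_zero hpO) R
    (subsingleton_MQ_of_not_res W₀ hΔ hp2 hirr hpO sd hspan hrbar hm hmm hpm htr W hM hN hN23 hQm
      hfr hPG hres) hB hτ

end Newst

end Fermat.Agent.RT8X
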